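/-
P-CFT / B-CYC (row 526, helper94): the mod `p` cyclotomic character is trivial on a level of
`G_{ℚ,S}` when `p ∈ S`.

`N := ker (cycloChar p)`: normal, of finite index (the target `(ZMod p)ˣ` is finite), contains
the fixing subgroup of `ℚ(μ_p)`, and contains every inertia subgroup at `q ≠ p`
(helper81's `modCyclo_inertia`).
-/
import Fermat.Agent.H13.Cft.Interfaces
import Fermat.Agent.H81.Cyclo.Mod

set_option autoImplicit false

open ExtCitation

namespace Fermat.Agent.H94.Cft

variable (p : ℕ) [Fact p.Prime]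

/-- An automorphism fixing all `p`-th roots of unity has trivial mod `p` cyclotomic
character. -/
theorem cycloChar_eq_one_of_fix (σ : AlgebraicClosure ℚ ≃ₐ[ℚ] AlgebraicClosure ℚ)
    (h : ∀ t : AlgebraicClosure ℚ, t ^ p = 1 → σ t = t) : cycloChar p σ = 1 := by
  have hp : p.Prime := Fact.out
  have : NeZero p := ⟨hp.ne_zero⟩
  have : Fact (1 < p) := ⟨hp.one_lt⟩
  apply Units.ext
  have key := modularCyclotomicCharacter.unique (L := AlgebraicClosure ℚ)
    (card_rootsOfUnity_eq_self p) (σ : AlgebraicClosure ℚ ≃+* AlgebraicClosure ℚ)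
    (c := (1 : ZMod p)) (fun t ht => by
      rw [ZMod.val_one, pow_one]
      have ht' : ((t : (AlgebraicClosure ℚ)ˣ) : AlgebraicClosure ℚ) ^ p = 1 := by
        have := (mem_rootsOfUnity _ _).mp ht
        rw [← Units.val_pow_eq_pow_val, this, Units.val_one]
      exact h _ ht')
  rw [Units.val_one]
  exact key.symm

/-- The kernel of the mod `p` cyclotomic character has finite index. -/
theorem finiteIndex_ker_cycloChar : (cycloChar p).ker.FiniteIndex := by
  have : NeZero p := ⟨(Fact.out : p.Prime).ne_zero⟩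
  refine ⟨?_⟩
  rw [Subgroup.index_ker]
  exact Nat.card_pos.ne'

/-- The set of `p`-th roots of unity of `ℚ̄` is finite. -/
theorem finite_rootsSet : {t : AlgebraicClosure ℚ | t ^ p = 1}.Finite := by
  have hp : p.Prime := Fact.out
  have h : {t : AlgebraicClosure ℚ | t ^ p = 1}
      = ((Polynomial.nthRootsFinset p (1 : AlgebraicClosure ℚ) : Finset (AlgebraicClosure ℚ)) :
          Set (AlgebraicClosure ℚ)) := by
    ext t
    rw [Finset.mem_coe, Polynomial.mem_nthRootsFinset hp.pos]
    rfl
  rw [h]
  exact Finset.finite_toSet _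

/-- **[B-CYC]** -/
theorem cycloLevel : Fermat.Agent.H13.Cft.CycloLevelStatement := by
  intro p _ S hpS
  have hp : p.Prime := Fact.out
  refine ⟨(cycloChar p).ker, ⟨inferInstance, finiteIndex_ker_cycloChar p, ?_, ?_⟩, ?_⟩
  · -- contains the fixing subgroup of `ℚ(μ_p)`
    have hfin : Finite {t : AlgebraicClosure ℚ | t ^ p = 1} := (finite_rootsSet p).to_subtype
    refine ⟨IntermediateField.adjoin ℚ {t : AlgebraicClosure ℚ | t ^ p = 1}, ?_, ?_⟩
    · have halg : Algebra.IsAlgebraic ℚ (AlgebraicClosure ℚ) := AlgebraicClosure.isAlgebraic ℚ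
      exact IntermediateField.finiteDimensional_adjoin
        (fun x _ => (Algebra.IsAlgebraic.isAlgebraic x).isIntegral)
    · intro σ hσ
      rw [MonoidHom.mem_ker]
      apply cycloChar_eq_one_of_fix
      intro t ht
      have ht' : t ∈ IntermediateField.adjoin ℚ {t : AlgebraicClosure ℚ | t ^ p = 1} :=
        IntermediateField.subset_adjoin ℚ _ ht
      exact (IntermediateField.mem_fixingSubgroup_iff _ σ).mp hσ t ht'
  · -- contains inertia at `q ∉ S`
    intro q hq A hA σ hσ
    rw [MonoidHom.mem_ker]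
    have hqp : (q : ℕ) ≠ p := by
      intro h
      apply hq
      have : q = pPrime p := Subtype.ext h
      rw [this]
      exact hpS
    have h1 : Fermat.Agent.H81.Cyclo.modCyclo p (ZMod p) σ = 1 :=
      Fermat.Agent.H81.Cyclo.modCyclo_inertia p (ZMod p) q.2 hqp hA hσ
    apply cycloChar_eq_one_of_fix
    intro t ht
    have h2 := Fermat.Agent.H81.Cyclo.modCyclo_spec p (ZMod p) σ ht 1
      (by rw [h1, Units.val_one, Nat.cast_one])
    rw [h2, pow_one]
  · intro s hs
    exact MonoidHom.mem_ker.mp hs

end Fermat.Agent.H94.Cft
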