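/-
P-CFT / FR-SHAP / SH-5 (row 609, helper94): the Shapiro map is compatible with cup products on
the nose (on level cochains).
-/
import Fermat.Agent.H97.Shap.Interfaces

set_option autoImplicit false

universe u

open CategoryTheory groupCohomology

namespace Fermat.Agent.H94.Cft

open Fermat.Agent.H13.Cft Fermat.Agent.H97.Shap

variable {k G : Type u} [CommRing k] [Group G]

/-- `headProd` commutes with the inclusion of a subgroup. -/
lemma headProd_subtype_comp (U : Subgroup G) {i j : ℕ} (u : Fin (i + j) → U) :
    headProd (i := i) (j := j) (U.subtype ∘ u)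
      = ((headProd (i := i) (j := j) u : U) : G) := by
  unfold headProd
  have h := map_list_prod U.subtype (List.ofFn fun t : Fin i => u (Fin.castAdd j t))
  rw [List.map_ofFn] at h
  exact h.symm

/-- Value at `1` of a translate in a coinduced module. -/
lemma coind_ρ_apply_one (U : Subgroup G) (B : Rep.{u} k U) (v : U)
    (f : Rep.coind U.subtype B) :
    ((Rep.coind U.subtype B).ρ (v : G) f).1 1 = B.ρ v (f.1 1) := by
  have h := f.2 v 1
  simp only [mul_one] at h
  show f.1 (1 * (v : G)) = B.ρ v (f.1 1)
  rw [one_mul]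
  exact h

/-- **SH-5** -/
theorem shapiroCup : ShapiroCupStatement.{u} := by
  intro k G _ _ 𝒰 U hU A B C β i j a y
  apply Subtype.ext
  funext u
  show ((cupLvl 𝒰 (coindPairing U β) i j a y).1 (U.subtype ∘ u)).1 1 = _
  rw [cupLvl_apply, cupLvl_apply, headProd_subtype_comp]
  show β.toLin ((a.1 fun t => (U.subtype ∘ u) (Fin.castAdd j t)).1 1)
      (((Rep.coind U.subtype B).ρ ((headProd (i := i) (j := j) u : U) : G)
        (y.1 fun t => (U.subtype ∘ u) (Fin.natAdd i t))).1 1) = _
  rw [coind_ρ_apply_one]
  rfl

end Fermat.Agent.H94.Cft
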