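/-
P-CFT / FR-FIN (row 549, helper94): FINITE-LEVEL COMPARISON.

For a level system `𝒰` on `G`, `M : Rep k G` and `N ∈ 𝒰.sets`, the inflation
`infl 𝒰 M N hN : inhomogeneousCochains (M.quotientToInvariants N) ⟶ lvlComplex 𝒰 M`
(corestriction of Mathlib's `cochainsMap (QuotientGroup.mk' N) _`) is injective in every degree
with image the cochains of level `N`; inflations are transitive; the level complex is the union
of the images.
-/
import Fermat.Agent.H13.Cft.Interfaces

set_option autoImplicit false

universe u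

open CategoryTheory groupCohomology

namespace Fermat.Agent.H94.Cft

open Fermat.Agent.H13.Cft

variable {k G : Type u} [CommRing k] [Group G]

/-- The morphism of representations `M^N → M` over `G → G ⧸ N`. -/
noncomputable abbrev inflHom (M : Rep.{u} k G) (N : Subgroup G) [N.Normal] :
    Rep.res (QuotientGroup.mk' N) (M.quotientToInvariants N) ⟶ M :=
  Rep.ofHom (M.ρ.quotientToInvariants_lift N)

/-- Inflation into all inhomogeneous cochains of `G` (Mathlib's inflation). -/
noncomputable abbrev inflAll (M : Rep.{u} k G) (N : Subgroup G) [N.Normal] :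
    inhomogeneousCochains (M.quotientToInvariants N) ⟶ inhomogeneousCochains M :=
  cochainsMap (QuotientGroup.mk' N) (inflHom M N)

lemma inflAll_apply (M : Rep.{u} k G) (N : Subgroup G) [N.Normal] {n : ℕ}
    (y : (Fin n → G ⧸ N) → M.quotientToInvariants N) (g : Fin n → G) :
    ((inflAll M N).f n).hom y g = ((y (QuotientGroup.mk' N ∘ g) : M.quotientToInvariants N) : M) :=
  rfl

/-- An inflated cochain has level `N`. -/
lemma isLevelAt_inflAll (M : Rep.{u} k G) (N : Subgroup G) [N.Normal] {n : ℕ}
    (y : (Fin n → G ⧸ N) → M.quotientToInvariants N) :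
    IsLevelAt N M (((inflAll M N).f n).hom y) := by
  refine ⟨fun g u hu => ?_, fun g s hs => ?_⟩
  · rw [inflAll_apply, inflAll_apply]
    have : (QuotientGroup.mk' N ∘ (g * u)) = (QuotientGroup.mk' N ∘ g) := by
      funext i
      simp only [Function.comp_apply, Pi.mul_apply, QuotientGroup.mk'_apply]
      rw [QuotientGroup.mk_mul, (QuotientGroup.eq_one_iff (u i)).mpr (hu i), mul_one]
    rw [this]
  · rw [inflAll_apply]
    exact (y (QuotientGroup.mk' N ∘ g)).2 ⟨s, hs⟩

lemma inflAll_mem_lvlCochains (𝒰 : LevelSys G) (M : Rep.{u} k G) (N : Subgroup G) [N.Normal]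
    (hN : N ∈ 𝒰.sets) {n : ℕ} (y : (Fin n → G ⧸ N) → M.quotientToInvariants N) :
    ((inflAll M N).f n).hom y ∈ lvlCochains 𝒰 M n :=
  ⟨N, hN, isLevelAt_inflAll M N y⟩

/-- **Inflation** from the finite level `N` into the level complex. -/
noncomputable def infl (𝒰 : LevelSys G) (M : Rep.{u} k G) (N : Subgroup G) [N.Normal]
    (hN : N ∈ 𝒰.sets) :
    inhomogeneousCochains (M.quotientToInvariants N) ⟶ lvlComplex 𝒰 M where
  f n := ModuleCat.ofHom
    (((inflAll M N).f n).hom.codRestrict (lvlCochains 𝒰 M n)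
      fun y => inflAll_mem_lvlCochains 𝒰 M N hN y)
  comm' i j (hij : _ = _) := by
    subst hij
    ext y : 2
    apply Subtype.ext
    have := congrArg (fun ψ => (ModuleCat.Hom.hom ψ) y) ((inflAll M N).comm i (i + 1))
    simp only [CochainComplex.of.d, dif_pos, eqToHom_refl, Category.comp_id, ModuleCat.hom_comp,
      LinearMap.comp_apply] at this
    simp only [CochainComplex.of.d, dif_pos, eqToHom_refl, Category.comp_id, ModuleCat.hom_comp,
      LinearMap.comp_apply]
    exact this

@[simp] lemma infl_f_coe (𝒰 : LevelSys G) (M : Rep.{u} k G) (N : Subgroup G) [N.Normal]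
    (hN : N ∈ 𝒰.sets) (n : ℕ) (y : (Fin n → G ⧸ N) → M.quotientToInvariants N) :
    ((((infl 𝒰 M N hN).f n).hom y : lvlCochains 𝒰 M n) : (Fin n → G) → M)
      = ((inflAll M N).f n).hom y := rfl

lemma infl_f_apply (𝒰 : LevelSys G) (M : Rep.{u} k G) (N : Subgroup G) [N.Normal]
    (hN : N ∈ 𝒰.sets) (n : ℕ) (y : (Fin n → G ⧸ N) → M.quotientToInvariants N)
    (g : Fin n → G) :
    ((((infl 𝒰 M N hN).f n).hom y : lvlCochains 𝒰 M n) : (Fin n → G) → M) g
      = ((y (QuotientGroup.mk' N ∘ g) : M.quotientToInvariants N) : M) := rfl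

/-- `infl ≫ (inclusion into all cochains) = Mathlib's inflation`. -/
lemma infl_comp_lvlComplexι (𝒰 : LevelSys G) (M : Rep.{u} k G) (N : Subgroup G) [N.Normal]
    (hN : N ∈ 𝒰.sets) : infl 𝒰 M N hN ≫ lvlComplexι 𝒰 M = inflAll M N := by
  ext n y : 3
  rfl

lemma exists_comp_mk_eq (N : Subgroup G) [N.Normal] {n : ℕ} (q : Fin n → G ⧸ N) :
    ∃ g : Fin n → G, QuotientGroup.mk' N ∘ g = q :=
  ⟨fun i => (q i).out, funext fun i => by simp⟩

/-- (1a) Mathlib's inflation is injective on cochains. -/
lemma inflAll_injective (M : Rep.{u} k G) (N : Subgroup G) [N.Normal] (n : ℕ) :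
    Function.Injective ((inflAll M N).f n).hom := by
  intro y y' h
  funext q
  obtain ⟨g, rfl⟩ := exists_comp_mk_eq N q
  apply Subtype.ext
  have := congrFun h g
  rwa [inflAll_apply, inflAll_apply] at this

/-- (1a) `infl` is injective in every degree. -/
lemma infl_injective (𝒰 : LevelSys G) (M : Rep.{u} k G) (N : Subgroup G) [N.Normal]
    (hN : N ∈ 𝒰.sets) (n : ℕ) : Function.Injective ((infl 𝒰 M N hN).f n).hom := by
  intro y y' h
  apply inflAll_injective M N n
  exact congrArg Subtype.val h

/-- (1b) the image of `infl` consists of cochains of level `N`. -/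
lemma isLevelAt_infl (𝒰 : LevelSys G) (M : Rep.{u} k G) (N : Subgroup G) [N.Normal]
    (hN : N ∈ 𝒰.sets) (n : ℕ) (y : (Fin n → G ⧸ N) → M.quotientToInvariants N) :
    IsLevelAt N M ((((infl 𝒰 M N hN).f n).hom y : lvlCochains 𝒰 M n) : (Fin n → G) → M) :=
  isLevelAt_inflAll M N y

/-- Two tuples with the same image in `G ⧸ N` differ by a tuple in `N`. -/
lemma exists_mul_of_comp_mk_eq (N : Subgroup G) [N.Normal] {n : ℕ} (g g' : Fin n → G)
    (h : QuotientGroup.mk' N ∘ g = QuotientGroup.mk' N ∘ g') :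
    ∃ u : Fin n → G, (∀ i, u i ∈ N) ∧ g' = g * u := by
  refine ⟨fun i => (g i)⁻¹ * g' i, fun i => ?_, funext fun i => by simp⟩
  have := congrFun h i
  simp only [Function.comp_apply, QuotientGroup.mk'_apply] at this
  exact QuotientGroup.eq.mp this

/-- (1b) every cochain of level `N` is inflated from `G ⧸ N` (cochain form). -/
lemma exists_inflAll_eq_of_isLevelAt (M : Rep.{u} k G) (N : Subgroup G) [N.Normal] {n : ℕ}
    {x : (Fin n → G) → M} (hx : IsLevelAt N M x) :
    ∃ y : (Fin n → G ⧸ N) → M.quotientToInvariants N, ((inflAll M N).f n).hom y = x := by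
  refine ⟨fun q => ⟨x (fun i => (q i).out), fun s => hx.2 _ s.1 s.2⟩, ?_⟩
  funext g
  rw [inflAll_apply]
  show x (fun i => ((QuotientGroup.mk' N ∘ g) i).out) = x g
  obtain ⟨u, hu, h⟩ := exists_mul_of_comp_mk_eq N g (fun i => ((QuotientGroup.mk' N ∘ g) i).out)
    (funext fun i => by simp)
  rw [h, hx.1 g u hu]

/-- (1b) every level cochain of level `N` is in the image of `infl`. -/
lemma exists_infl_eq_of_isLevelAt (𝒰 : LevelSys G) (M : Rep.{u} k G) (N : Subgroup G) [N.Normal]
    (hN : N ∈ 𝒰.sets) {n : ℕ} (x : lvlCochains 𝒰 M n) (hx : IsLevelAt N M x.1) :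
    ∃ y : (Fin n → G ⧸ N) → M.quotientToInvariants N, ((infl 𝒰 M N hN).f n).hom y = x := by
  obtain ⟨y, hy⟩ := exists_inflAll_eq_of_isLevelAt M N hx
  exact ⟨y, Subtype.ext hy⟩

/-- (1) the image of `infl` is exactly the set of level cochains of level `N`. -/
theorem range_infl (𝒰 : LevelSys G) (M : Rep.{u} k G) (N : Subgroup G) [N.Normal]
    (hN : N ∈ 𝒰.sets) (n : ℕ) :
    Set.range ((infl 𝒰 M N hN).f n).hom = {x : lvlCochains 𝒰 M n | IsLevelAt N M x.1} := by
  ext x
  constructor
  · rintro ⟨y, rfl⟩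
    exact isLevelAt_infl 𝒰 M N hN n y
  · intro hx
    exact exists_infl_eq_of_isLevelAt 𝒰 M N hN x hx

/-- The level complex is the union of the images of the inflations. -/
theorem exists_infl_eq (𝒰 : LevelSys G) (M : Rep.{u} k G) {n : ℕ} (x : lvlCochains 𝒰 M n) :
    ∃ (N : Subgroup G) (_ : N.Normal) (hN : N ∈ 𝒰.sets)
      (y : (Fin n → G ⧸ N) → M.quotientToInvariants N), ((infl 𝒰 M N hN).f n).hom y = x := by
  obtain ⟨N, hN, hx⟩ := x.2
  have := 𝒰.normal N hN
  obtain ⟨y, hy⟩ := exists_infl_eq_of_isLevelAt 𝒰 M N hN x hx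
  exact ⟨N, this, hN, y, hy⟩

/-! ### Transitivity -/

section trans

variable (M : Rep.{u} k G) (N N' : Subgroup G) [N.Normal] [N'.Normal] (h : N' ≤ N)

/-- The projection `G ⧸ N' → G ⧸ N` for `N' ≤ N`. -/
abbrev quotProj : G ⧸ N' →* G ⧸ N :=
  QuotientGroup.map N' N (MonoidHom.id G) (fun _ hx => h hx)

lemma quotProj_mk (g : G) : quotProj N N' h (g : G ⧸ N') = (g : G ⧸ N) := rfl

lemma quotProj_comp_mk {n : ℕ} (g : Fin n → G) :
    quotProj N N' h ∘ (QuotientGroup.mk' N' ∘ g) = QuotientGroup.mk' N ∘ g := rfl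

omit [N.Normal] [N'.Normal] in
include h in
lemma invariants_le_of_le :
    Representation.invariants (M.ρ.comp N.subtype)
      ≤ Representation.invariants (M.ρ.comp N'.subtype) :=
  fun _ hx s => hx ⟨s.1, h s.2⟩

/-- The morphism of representations `M^N → M^{N'}` over `G ⧸ N' → G ⧸ N`. -/
noncomputable def quotHom :
    Rep.res (quotProj N N' h) (M.quotientToInvariants N) ⟶ M.quotientToInvariants N' :=
  Rep.ofHom ⟨Submodule.inclusion (invariants_le_of_le M N N' h),
    fun q => QuotientGroup.induction_on q fun _ => rfl⟩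

lemma quotHom_apply (x : M.quotientToInvariants N) :
    (((quotHom M N N' h).hom x : M.quotientToInvariants N') : M) = (x : M) := rfl

/-- Inflation between two finite levels `N' ≤ N`. -/
noncomputable abbrev inflQuot :
    inhomogeneousCochains (M.quotientToInvariants N) ⟶
      inhomogeneousCochains (M.quotientToInvariants N') :=
  cochainsMap (quotProj N N' h) (quotHom M N N' h)

lemma inflQuot_apply {n : ℕ} (y : (Fin n → G ⧸ N) → M.quotientToInvariants N)
    (q : Fin n → G ⧸ N') :
    ((((inflQuot M N N' h).f n).hom y q : M.quotientToInvariants N') : M)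
      = ((y (quotProj N N' h ∘ q) : M.quotientToInvariants N) : M) := rfl

/-- (2) transitivity, in all cochains. -/
theorem inflQuot_comp_inflAll : inflQuot M N N' h ≫ inflAll M N' = inflAll M N := by
  ext n y : 3
  rfl

/-- (2) **transitivity** of inflation. -/
theorem inflQuot_comp_infl (𝒰 : LevelSys G) (hN : N ∈ 𝒰.sets) (hN' : N' ∈ 𝒰.sets) :
    inflQuot M N N' h ≫ infl 𝒰 M N' hN' = infl 𝒰 M N hN := by
  ext n y : 3
  rfl

lemma inflQuot_injective (n : ℕ) : Function.Injective ((inflQuot M N N' h).f n).hom := by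
  intro y y' hyy
  apply inflAll_injective M N n
  have h1 := congrArg (fun φ => (ModuleCat.Hom.hom (φ.f n)) y) (inflQuot_comp_inflAll M N N' h)
  have h2 := congrArg (fun φ => (ModuleCat.Hom.hom (φ.f n)) y') (inflQuot_comp_inflAll M N N' h)
  simp only [HomologicalComplex.comp_f, ModuleCat.hom_comp, LinearMap.comp_apply] at h1 h2
  rw [← h1, ← h2, hyy]

/-- Inflation between finite levels is transitive. -/
theorem inflQuot_comp_inflQuot (N'' : Subgroup G) [N''.Normal] (h' : N'' ≤ N') :
    inflQuot M N N' h ≫ inflQuot M N' N'' h' = inflQuot M N N'' (h'.trans h) := by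
  ext n y : 3
  apply inflAll_injective M N'' n
  rfl

end trans

/-! ### Functoriality in the group and in the coefficients -/

section functoriality

variable {G' : Type u} [Group G'] (f : G' →* G) {A : Rep.{u} k G} {B : Rep.{u} k G'}
  (φ : Rep.res f A ⟶ B) (N : Subgroup G) [N.Normal] (N' : Subgroup G') [N'.Normal]
  (hle : N' ≤ N.comap f)

omit [N.Normal] [N'.Normal] in
include hle in
lemma map_mem_invariants (a : A) (ha : a ∈ Representation.invariants (A.ρ.comp N.subtype)) :
    φ.hom a ∈ Representation.invariants (B.ρ.comp N'.subtype) := by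
  intro s
  have h1 := Rep.hom_comm_apply φ s.1 a
  show B.ρ s.1 (φ.hom a) = φ.hom a
  rw [← h1]
  exact congrArg _ (ha ⟨f s.1, hle s.2⟩)

/-- The linear map `A^N → B^{N'}` induced by `φ`. -/
noncomputable def invLin :
    Representation.invariants (A.ρ.comp N.subtype) →ₗ[k]
      Representation.invariants (B.ρ.comp N'.subtype) :=
  (φ.hom.toLinearMap.comp (Submodule.subtype _)).codRestrict _
    fun a => map_mem_invariants f φ N N' hle a.1 a.2

/-- The morphism of representations `A^N → B^{N'}` over `G' ⧸ N' → G ⧸ N` induced by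
`φ : res f A ⟶ B`. -/
noncomputable def invHom :
    Rep.res (QuotientGroup.map N' N f hle) (A.quotientToInvariants N) ⟶
      B.quotientToInvariants N' :=
  Rep.ofHom ⟨invLin f φ N N' hle, fun q => QuotientGroup.induction_on q fun g => by
    ext a
    exact Rep.hom_comm_apply φ g a.1⟩

lemma invHom_apply (a : A.quotientToInvariants N) :
    (((invHom f φ N N' hle).hom a : B.quotientToInvariants N') : B) = φ.hom (a : A) := rfl

/-- The map between the cochains of the finite quotients induced by `(f, φ)`. -/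
noncomputable abbrev finMap :
    inhomogeneousCochains (A.quotientToInvariants N) ⟶
      inhomogeneousCochains (B.quotientToInvariants N') :=
  cochainsMap (QuotientGroup.map N' N f hle) (invHom f φ N N' hle)

/-- (5) **Naturality of inflation** with respect to group homomorphisms and coefficient maps
(restriction to subgroups, localisation, change of coefficients). -/
theorem infl_comp_lvlCochainsMap {𝒱 : LevelSys G'} {𝒰 : LevelSys G} (hf : 𝒱.Compat 𝒰 f)
    (hN : N ∈ 𝒰.sets) (hN' : N' ∈ 𝒱.sets) :
    infl 𝒰 A N hN ≫ lvlCochainsMap f φ hf = finMap f φ N N' hle ≫ infl 𝒱 B N' hN' := by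
  ext n y : 3
  rfl

/-- Naturality of Mathlib's inflation (all cochains). -/
theorem inflAll_comp_cochainsMap :
    inflAll A N ≫ cochainsMap f φ = finMap f φ N N' hle ≫ inflAll B N' := by
  ext n y : 3
  rfl

end functoriality

/-- (5a) compatibility of inflation with a change of coefficients. -/
theorem infl_comp_lvlMap (𝒰 : LevelSys G) {A B : Rep.{u} k G} (φ : A ⟶ B) (N : Subgroup G)
    [N.Normal] (hN : N ∈ 𝒰.sets) :
    infl 𝒰 A N hN ≫ lvlMap 𝒰 φ
      = cochainsMap (MonoidHom.id (G ⧸ N)) ((Rep.quotientToInvariantsFunctor k N).map φ)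
          ≫ infl 𝒰 B N hN := by
  ext n y : 3
  rfl

/-- (5c) compatibility of inflation with restriction along a compatible homomorphism. -/
theorem infl_comp_lvlRes {G' : Type u} [Group G'] (f : G' →* G) {𝒱 : LevelSys G'}
    {𝒰 : LevelSys G} (hf : 𝒱.Compat 𝒰 f) (M : Rep.{u} k G) (N : Subgroup G) [N.Normal]
    (N' : Subgroup G') [N'.Normal] (hle : N' ≤ N.comap f) (hN : N ∈ 𝒰.sets)
    (hN' : N' ∈ 𝒱.sets) :
    infl 𝒰 M N hN ≫ lvlRes f hf M
      = finMap f (𝟙 (Rep.res f M)) N N' hle ≫ infl 𝒱 (Rep.res f M) N' hN' :=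
  infl_comp_lvlCochainsMap f (𝟙 _) N N' hle hf hN hN'

/-! ### Cup products -/

section cup

variable {A B C : Rep.{u} k G} (β : RepPairing A B C) (N : Subgroup G) [N.Normal]

/-- The pairing `A^N × B^N → C^N` of `G ⧸ N`-representations induced by `β`. -/
noncomputable def pairingQuot :
    RepPairing (A.quotientToInvariants N) (B.quotientToInvariants N)
      (C.quotientToInvariants N) where
  toLin := LinearMap.mk₂ k
    (fun a b => ⟨β.toLin a.1 b.1, fun s => by
      show C.ρ s.1 (β.toLin a.1 b.1) = β.toLin a.1 b.1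
      rw [← β.equivariant]
      have ha : A.ρ s.1 a.1 = a.1 := a.2 s
      have hb : B.ρ s.1 b.1 = b.1 := b.2 s
      rw [ha, hb]⟩)
    (fun a a' b => by apply Subtype.ext; simp)
    (fun c a b => by apply Subtype.ext; simp)
    (fun a b b' => by apply Subtype.ext; simp)
    (fun c a b => by apply Subtype.ext; simp)
  equivariant := fun q a b => QuotientGroup.induction_on q fun g => by
    apply Subtype.ext
    exact β.equivariant g a.1 b.1

lemma pairingQuot_apply (a : A.quotientToInvariants N) (b : B.quotientToInvariants N) :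
    (((pairingQuot β N).toLin a b : C.quotientToInvariants N) : C) = β.toLin (a : A) (b : B) :=
  rfl

lemma headProd_comp_mk {i j : ℕ} (g : Fin (i + j) → G) :
    headProd (i := i) (j := j) (QuotientGroup.mk' N ∘ g)
      = QuotientGroup.mk' N (headProd (i := i) (j := j) g) := by
  unfold headProd
  rw [map_list_prod, List.map_ofFn]
  rfl

/-- (5b) **inflation commutes with cup products** (all cochains). -/
theorem inflAll_cupFn {i j : ℕ} (a : (Fin i → G ⧸ N) → A.quotientToInvariants N)
    (y : (Fin j → G ⧸ N) → B.quotientToInvariants N) :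
    ((inflAll C N).f (i + j)).hom (cupFn (pairingQuot β N) i j a y)
      = cupFn β i j (((inflAll A N).f i).hom a) (((inflAll B N).f j).hom y) := by
  funext g
  rw [inflAll_apply]
  unfold cupFn
  rw [inflAll_apply, inflAll_apply, headProd_comp_mk]
  rfl

/-- (5b) **inflation commutes with cup products** (level cochains). -/
theorem infl_cupFn (𝒰 : LevelSys G) (hN : N ∈ 𝒰.sets) {i j : ℕ}
    (a : (Fin i → G ⧸ N) → A.quotientToInvariants N)
    (y : (Fin j → G ⧸ N) → B.quotientToInvariants N) :
    ((infl 𝒰 C N hN).f (i + j)).hom (cupFn (pairingQuot β N) i j a y)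
      = cupLvl 𝒰 β i j (((infl 𝒰 A N hN).f i).hom a) (((infl 𝒰 B N hN).f j).hom y) :=
  Subtype.ext (inflAll_cupFn β N a y)

end cup

end Fermat.Agent.H94.Cft
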