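/-
P-CFT / FR-FIN (row 549, helper94): FINITE-LEVEL COMPARISON, cohomology level.

`lvlH 𝒰 M n` is the filtered colimit of the `groupCohomology (M.quotientToInvariants N) n`,
`N ∈ 𝒰.sets`, along the inflation maps:
* `exists_inflH_eq`          : every level class is inflated from a finite level;
* `exists_inflQuotH_eq_zero` : a class of finite level that dies in level cohomology already
                               dies at a finer finite level;
* `inflQuotH_comp_inflH`     : transitivity.
-/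
import Fermat.Agent.H94.Cft.FinLevel
import Fermat.Agent.H19.Cft.HomologyApi

set_option autoImplicit false

universe u

open CategoryTheory groupCohomology

namespace Fermat.Agent.H94.Cft

open Fermat.Agent.H13.Cft Fermat.Agent.H19

variable {k G : Type u} [CommRing k] [Group G]

/-- Inflation `Hⁿ(G ⧸ N, M^N) ⟶ Hⁿ(𝒰, M)` on cohomology. -/
noncomputable def inflH (𝒰 : LevelSys G) (M : Rep.{u} k G) (N : Subgroup G) [N.Normal]
    (hN : N ∈ 𝒰.sets) (n : ℕ) :
    groupCohomology (M.quotientToInvariants N) n ⟶ lvlH 𝒰 M n :=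
  HomologicalComplex.homologyMap (infl 𝒰 M N hN) n

/-- Inflation `Hⁿ(G ⧸ N, M^N) ⟶ Hⁿ(G ⧸ N', M^{N'})` between finite levels `N' ≤ N`
(an instance of Mathlib's `groupCohomology.map`). -/
noncomputable abbrev inflQuotH (M : Rep.{u} k G) (N N' : Subgroup G) [N.Normal] [N'.Normal]
    (h : N' ≤ N) (n : ℕ) :
    groupCohomology (M.quotientToInvariants N) n ⟶ groupCohomology (M.quotientToInvariants N') n :=
  groupCohomology.map (quotProj N N' h) (quotHom M N N' h) n

/-- The class of a cocycle of the finite quotient `G ⧸ N`. -/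
noncomputable def finHMk (M : Rep.{u} k G) (N : Subgroup G) [N.Normal] (n : ℕ)
    (y : (Fin n → G ⧸ N) → M.quotientToInvariants N)
    (hy : (inhomogeneousCochains.d (M.quotientToInvariants N) n).hom y = 0) :
    groupCohomology (M.quotientToInvariants N) n :=
  hMk (inhomogeneousCochains (M.quotientToInvariants N)) n y (by
    have : ((inhomogeneousCochains (M.quotientToInvariants N)).d n (n + 1)).hom y
        = (inhomogeneousCochains.d (M.quotientToInvariants N) n).hom y := by
      simp [CochainComplex.of.d]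
    rw [this, hy])

lemma finite_d_hom_apply (M : Rep.{u} k G) (N : Subgroup G) [N.Normal] (n : ℕ)
    (y : (Fin n → G ⧸ N) → M.quotientToInvariants N) :
    ((inhomogeneousCochains (M.quotientToInvariants N)).d n (n + 1)).hom y
      = (inhomogeneousCochains.d (M.quotientToInvariants N) n).hom y := by
  simp [CochainComplex.of.d]

/-- `infl` commutes with the differentials (elementwise). -/
lemma infl_d (𝒰 : LevelSys G) (M : Rep.{u} k G) (N : Subgroup G) [N.Normal]
    (hN : N ∈ 𝒰.sets) (n : ℕ) (y : (Fin n → G ⧸ N) → M.quotientToInvariants N) :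
    ((infl 𝒰 M N hN).f (n + 1)).hom
        (((inhomogeneousCochains (M.quotientToInvariants N)).d n (n + 1)).hom y)
      = ((lvlComplex 𝒰 M).d n (n + 1)).hom (((infl 𝒰 M N hN).f n).hom y) := by
  have := congrArg (fun ψ => (ModuleCat.Hom.hom ψ) y) ((infl 𝒰 M N hN).comm n (n + 1))
  simp only [ModuleCat.hom_comp, LinearMap.comp_apply] at this
  exact this.symm

/-- A cochain of `G ⧸ N` whose inflation is a level cocycle is a cocycle. -/
lemma d_eq_zero_of_infl (𝒰 : LevelSys G) (M : Rep.{u} k G) (N : Subgroup G) [N.Normal]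
    (hN : N ∈ 𝒰.sets) (n : ℕ) (y : (Fin n → G ⧸ N) → M.quotientToInvariants N)
    (h : ((lvlComplex 𝒰 M).d n (n + 1)).hom (((infl 𝒰 M N hN).f n).hom y) = 0) :
    ((inhomogeneousCochains (M.quotientToInvariants N)).d n (n + 1)).hom y = 0 := by
  apply infl_injective 𝒰 M N hN (n + 1)
  rw [infl_d, h, map_zero]

/-- The inflation of a cocycle is a level cocycle. -/
lemma lvlD_infl_eq_zero (𝒰 : LevelSys G) (M : Rep.{u} k G) (N : Subgroup G) [N.Normal]
    (hN : N ∈ 𝒰.sets) (n : ℕ) (y : (Fin n → G ⧸ N) → M.quotientToInvariants N)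
    (hy : (inhomogeneousCochains.d (M.quotientToInvariants N) n).hom y = 0) :
    lvlD 𝒰 M n (((infl 𝒰 M N hN).f n).hom y) = 0 := by
  rw [← lvlComplex_d_hom_apply, ← infl_d, finite_d_hom_apply, hy, map_zero]

/-- Inflation on classes of cocycles. -/
theorem inflH_finHMk (𝒰 : LevelSys G) (M : Rep.{u} k G) (N : Subgroup G) [N.Normal]
    (hN : N ∈ 𝒰.sets) (n : ℕ) (y : (Fin n → G ⧸ N) → M.quotientToInvariants N)
    (hy : (inhomogeneousCochains.d (M.quotientToInvariants N) n).hom y = 0) :
    (inflH 𝒰 M N hN n).hom (finHMk M N n y hy)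
      = lvlHMk 𝒰 M n (((infl 𝒰 M N hN).f n).hom y) (lvlD_infl_eq_zero 𝒰 M N hN n y hy) := by
  have key : (HomologicalComplex.homologyMap (infl 𝒰 M N hN) n).hom
      (hMk (inhomogeneousCochains (M.quotientToInvariants N)) n y
        ((finite_d_hom_apply M N n y).trans hy))
        = hMk (lvlComplex 𝒰 M) n (((infl 𝒰 M N hN).f n).hom y)
          ((lvlComplex_d_hom_apply 𝒰 M n _).trans (lvlD_infl_eq_zero 𝒰 M N hN n y hy)) :=
    hapi_homologyMap_hMk _ _ _ _ _ _ _
  exact key

/-- Every class of the finite quotient is the class of a cocycle. -/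
theorem finHMk_surjective (M : Rep.{u} k G) (N : Subgroup G) [N.Normal] (n : ℕ)
    (c : groupCohomology (M.quotientToInvariants N) n) :
    ∃ (y : (Fin n → G ⧸ N) → M.quotientToInvariants N)
      (hy : (inhomogeneousCochains.d (M.quotientToInvariants N) n).hom y = 0),
      finHMk M N n y hy = c := by
  obtain ⟨y, hy, h⟩ :=
    hapi_hMk_surjective (inhomogeneousCochains (M.quotientToInvariants N)) n c
  exact ⟨y, (finite_d_hom_apply M N n y).symm.trans hy, h⟩

/-- (2) transitivity on cohomology. -/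
theorem inflQuotH_comp_inflH (𝒰 : LevelSys G) (M : Rep.{u} k G) (N N' : Subgroup G)
    [N.Normal] [N'.Normal] (h : N' ≤ N) (hN : N ∈ 𝒰.sets) (hN' : N' ∈ 𝒰.sets) (n : ℕ) :
    inflQuotH M N N' h n ≫ inflH 𝒰 M N' hN' n = inflH 𝒰 M N hN n := by
  have key : HomologicalComplex.homologyMap (inflQuot M N N' h) n ≫
      HomologicalComplex.homologyMap (infl 𝒰 M N' hN') n
        = HomologicalComplex.homologyMap (infl 𝒰 M N hN) n := by
    rw [← HomologicalComplex.homologyMap_comp, inflQuot_comp_infl M N N' h 𝒰 hN hN']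
  exact key

theorem inflQuotH_comp_inflH_apply (𝒰 : LevelSys G) (M : Rep.{u} k G) (N N' : Subgroup G)
    [N.Normal] [N'.Normal] (h : N' ≤ N) (hN : N ∈ 𝒰.sets) (hN' : N' ∈ 𝒰.sets) (n : ℕ)
    (c : groupCohomology (M.quotientToInvariants N) n) :
    (inflH 𝒰 M N' hN' n).hom ((inflQuotH M N N' h n).hom c) = (inflH 𝒰 M N hN n).hom c :=
  hapi_comp_apply _ _ _ (inflQuotH_comp_inflH 𝒰 M N N' h hN hN' n) c

/-- (3) **every level cohomology class is inflated from a finite level.** -/
theorem exists_inflH_eq (𝒰 : LevelSys G) (M : Rep.{u} k G) (n : ℕ) (z : lvlH 𝒰 M n) :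
    ∃ (N : Subgroup G) (_ : N.Normal) (hN : N ∈ 𝒰.sets)
      (c : groupCohomology (M.quotientToInvariants N) n), (inflH 𝒰 M N hN n).hom c = z := by
  obtain ⟨x, hx, rfl⟩ := hapi_hMk_surjective (lvlComplex 𝒰 M) n z
  obtain ⟨N, hNn, hN, y, hy⟩ := exists_infl_eq 𝒰 M (n := n) x
  have hy0 : ((inhomogeneousCochains (M.quotientToInvariants N)).d n (n + 1)).hom y = 0 := by
    apply d_eq_zero_of_infl 𝒰 M N hN n y
    rw [hy]
    exact hx
  refine ⟨N, hNn, hN, hMk (inhomogeneousCochains (M.quotientToInvariants N)) n y hy0, ?_⟩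
  have key : (HomologicalComplex.homologyMap (infl 𝒰 M N hN) n).hom
      (hMk (inhomogeneousCochains (M.quotientToInvariants N)) n y hy0)
        = hMk (lvlComplex 𝒰 M) n x hx := by
    rw [hapi_homologyMap_hMk']
    exact hapi_hMk_congr _ _ hy _ _
  exact key

/-- (4) **a class of finite level that dies in level cohomology dies at a finer finite
level.** -/
theorem exists_inflQuotH_eq_zero (𝒰 : LevelSys G) (M : Rep.{u} k G) (N : Subgroup G) [N.Normal]
    (hN : N ∈ 𝒰.sets) (n : ℕ) (c : groupCohomology (M.quotientToInvariants N) n)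
    (hc : (inflH 𝒰 M N hN n).hom c = 0) :
    ∃ (N' : Subgroup G) (_ : N'.Normal) (_ : N' ∈ 𝒰.sets) (h : N' ≤ N),
      (inflQuotH M N N' h n).hom c = 0 := by
  obtain ⟨y, hy, rfl⟩ := hapi_hMk_surjective (inhomogeneousCochains (M.quotientToInvariants N)) n c
  replace hc : (HomologicalComplex.homologyMap (infl 𝒰 M N hN) n).hom
      (hMk (inhomogeneousCochains (M.quotientToInvariants N)) n y hy) = 0 := hc
  rw [hapi_homologyMap_hMk'] at hc
  cases n with
  | zero =>
    rw [hapi_hMk_zero_eq_zero_iff] at hc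
    have hy0 : y = 0 := infl_injective 𝒰 M N hN 0 (hc.trans (map_zero _).symm)
    subst hy0
    refine ⟨N, inferInstance, hN, le_rfl, ?_⟩
    have key : hMk (inhomogeneousCochains (M.quotientToInvariants N)) 0 0 hy = 0 :=
      hapi_hMk_zero _ _ _
    have key2 : (HomologicalComplex.homologyMap (inflQuot M N N le_rfl) 0).hom
        (hMk (inhomogeneousCochains (M.quotientToInvariants N)) 0 0 hy) = 0 := by
      rw [key, map_zero]
    exact key2
  | succ n =>
    rw [hapi_hMk_succ_eq_zero_iff] at hc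
    obtain ⟨z, hz⟩ := hc
    obtain ⟨N₁, hN₁n, hN₁, w, hw⟩ := exists_infl_eq 𝒰 M (n := n) z
    obtain ⟨N', hN', hle⟩ := 𝒰.directed N hN N₁ hN₁
    have hN'n := 𝒰.normal N' hN'
    have h1 : N' ≤ N := hle.trans inf_le_left
    have h2 : N' ≤ N₁ := hle.trans inf_le_right
    refine ⟨N', hN'n, hN', h1, ?_⟩
    suffices key : (HomologicalComplex.homologyMap (inflQuot M N N' h1) (n + 1)).hom
        (hMk (inhomogeneousCochains (M.quotientToInvariants N)) (n + 1) y hy) = 0 from key
    rw [hapi_homologyMap_hMk', hapi_hMk_succ_eq_zero_iff]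
    refine ⟨((inflQuot M N₁ N' h2).f n).hom w, ?_⟩
    apply infl_injective 𝒰 M N' hN' (n + 1)
    rw [infl_d]
    have e1 : ((infl 𝒰 M N' hN').f n).hom (((inflQuot M N₁ N' h2).f n).hom w)
        = ((infl 𝒰 M N₁ hN₁).f n).hom w := rfl
    have e2 : ((infl 𝒰 M N' hN').f (n + 1)).hom (((inflQuot M N N' h1).f (n + 1)).hom y)
        = ((infl 𝒰 M N hN).f (n + 1)).hom y := rfl
    rw [e1, hw, hz, e2]

/-- Two classes of finite level with the same image in level cohomology agree at a finer
finite level. -/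
theorem exists_inflQuotH_eq (𝒰 : LevelSys G) (M : Rep.{u} k G) (N : Subgroup G) [N.Normal]
    (hN : N ∈ 𝒰.sets) (n : ℕ) (c c' : groupCohomology (M.quotientToInvariants N) n)
    (hc : (inflH 𝒰 M N hN n).hom c = (inflH 𝒰 M N hN n).hom c') :
    ∃ (N' : Subgroup G) (_ : N'.Normal) (_ : N' ∈ 𝒰.sets) (h : N' ≤ N),
      (inflQuotH M N N' h n).hom c = (inflQuotH M N N' h n).hom c' := by
  have h0 : (inflH 𝒰 M N hN n).hom (c - c') = 0 := by
    rw [map_sub, hc, sub_self]
  obtain ⟨N', hN'n, hN', h, h1⟩ := exists_inflQuotH_eq_zero 𝒰 M N hN n (c - c') h0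
  refine ⟨N', hN'n, hN', h, ?_⟩
  rw [map_sub, sub_eq_zero] at h1
  exact h1

/-- (5) naturality of inflation on cohomology, for a compatible group homomorphism `f` and a
coefficient map `φ : res f A ⟶ B`. -/
theorem inflH_naturality {G' : Type u} [Group G'] (f : G' →* G) {A : Rep.{u} k G}
    {B : Rep.{u} k G'} (φ : Rep.res f A ⟶ B) (N : Subgroup G) [N.Normal] (N' : Subgroup G')
    [N'.Normal] (hle : N' ≤ N.comap f) {𝒱 : LevelSys G'} {𝒰 : LevelSys G}
    (hf : 𝒱.Compat 𝒰 f) (hN : N ∈ 𝒰.sets) (hN' : N' ∈ 𝒱.sets) (n : ℕ) :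
    inflH 𝒰 A N hN n ≫ HomologicalComplex.homologyMap (lvlCochainsMap f φ hf) n
      = groupCohomology.map (QuotientGroup.map N' N f hle) (invHom f φ N N' hle) n
          ≫ inflH 𝒱 B N' hN' n := by
  have key : HomologicalComplex.homologyMap (infl 𝒰 A N hN) n ≫
      HomologicalComplex.homologyMap (lvlCochainsMap f φ hf) n
        = HomologicalComplex.homologyMap (finMap f φ N N' hle) n ≫
          HomologicalComplex.homologyMap (infl 𝒱 B N' hN') n := by
    rw [← HomologicalComplex.homologyMap_comp, ← HomologicalComplex.homologyMap_comp,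
      infl_comp_lvlCochainsMap f φ N N' hle hf hN hN']
  exact key

end Fermat.Agent.H94.Cft
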